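/-
Project ONE MACHINE, block [F], cell F-GEO/RES (helper20): ABSTRACT VALUE-GROUP DESCENT FOR A GENERAL
EXPONENT.  Copy of helper6's `s44rv_descend` (`S44/Res/ValGroup.lean`) with the hypothesis
"`[K' : K] < p`, `p` prime" replaced by "every `0 < d ≤ [K' : K]` is coprime to `p`" (`p ≠ 0` any
exponent; in the application `p = ℓ ^ n`, `ℓ ≥ 5`, `[K' : K] ≤ 3`).  Prefix `twfr_`.
-/
import Mathlib
import Fermat.Agent.S44.Res.ValGroup

set_option autoImplicit false

noncomputable section

namespace Fermat.Agent.TW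

open Polynomial Fermat.Agent.S44

section Abs

variable {K' : Type*} [Field K']

variable {K : Type*} [Field K] [Algebra K K']

/-- **value-group descent, general exponent**: if every `0 < d ≤ [K' : K]` is coprime to `p`, an
`p`-th power in `K'` up to an `R'`-unit is a `p`-th power in `K` up to an `R'`-unit. -/
theorem twfr_descend [FiniteDimensional K K'] (R' : ValuationSubring K') {p : ℕ} (hp0 : p ≠ 0)
    (hdeg : ∀ d : ℕ, 0 < d → d ≤ Module.finrank K K' → Nat.Coprime d p) {x : K} (hx : x ≠ 0) {y' u' : K'}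
    (hu : u' ∈ R' ∧ u' ∉ R'.nonunits) (h : algebraMap K K' x = u' * y' ^ p) :
    ∃ y : K, y ≠ 0 ∧ (algebraMap K K' x / algebraMap K K' y ^ p ∈ R' ∧
      algebraMap K K' x / algebraMap K K' y ^ p ∉ R'.nonunits) := by
  classical
  set v := R'.valuation with hv
  have hx' : algebraMap K K' x ≠ 0 := by
    rwa [Ne, map_eq_zero]
  have hy'0 : y' ≠ 0 := by
    rintro rfl
    rw [zero_pow hp0, mul_zero] at h
    exact hx' h
  have hu0 : u' ≠ 0 := by
    rintro rfl
    rw [zero_mul] at h
    exact hx' h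
  have hvu : v u' = 1 := by
    have h1 : (R'.valuation u') ≤ 1 := (ValuationSubring.valuation_le_one_iff _ _).2 hu.1
    have h2 : ¬ (R'.valuation u') < 1 := fun h2 =>
      hu.2 ((ValuationSubring.mem_nonunits_iff R').2 h2)
    exact le_antisymm h1 (not_lt.1 h2)
  have hvy0 : v y' ≠ 0 := (v.ne_zero_iff).2 hy'0
  -- the minimal polynomial of `y'`
  have hint : IsIntegral K y' := Algebra.IsIntegral.isIntegral y'
  set P := minpoly K y' with hP
  have hP0 : P ≠ 0 := minpoly.ne_zero hint
  have hPdeg : P.natDegree ≤ Module.finrank K K' := minpoly.natDegree_le y'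
  have hroot : ∑ i ∈ P.support, algebraMap K K' (P.coeff i) * y' ^ i = 0 := by
    have h1 : aeval y' P = 0 := minpoly.aeval K y'
    rw [aeval_def, eval₂_eq_sum, Polynomial.sum_def] at h1
    exact h1
  have hne : ∃ i ∈ P.support, algebraMap K K' (P.coeff i) * y' ^ i ≠ 0 := by
    obtain ⟨i, hi⟩ := Finset.nonempty_iff_ne_empty.2 (fun h0 => hP0 (support_eq_empty.1 h0))
    refine ⟨i, hi, mul_ne_zero ?_ (pow_ne_zero _ hy'0)⟩
    rw [Ne, map_eq_zero]
    exact mem_support_iff.1 hi
  obtain ⟨i, hi, j, hj, hij, hti, htj, hval⟩ :=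
    s44rv_two_terms v P.support (fun i => algebraMap K K' (P.coeff i) * y' ^ i) hroot hne
  -- wlog `i < j`
  have key : ∀ i j : ℕ, i ∈ P.support → j ∈ P.support → i < j →
      v (algebraMap K K' (P.coeff i) * y' ^ i) = v (algebraMap K K' (P.coeff j) * y' ^ j) →
      ∃ y : K, y ≠ 0 ∧ v (algebraMap K K' y) = v y' := by
    intro i j hi hj hlt hval
    have hai : P.coeff i ≠ 0 := mem_support_iff.1 hi
    have haj : P.coeff j ≠ 0 := mem_support_iff.1 hj
    have hjle : j ≤ P.natDegree := le_natDegree_of_mem_supp j hj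
    obtain ⟨d, rfl⟩ : ∃ d, j = i + d := ⟨j - i, by omega⟩
    have hd0 : 0 < d := by omega
    have hdp : d ≤ Module.finrank K K' := by omega
    -- `v(y')^d = v(a_i / a_j)`
    set c : K := P.coeff i / P.coeff (i + d) with hc
    have hc0 : c ≠ 0 := div_ne_zero hai haj
    have hvc : v (algebraMap K K' c) = v y' ^ d := by
      have haj' : v (algebraMap K K' (P.coeff (i + d))) ≠ 0 := by
        rw [Valuation.ne_zero_iff, Ne, map_eq_zero]
        exact haj
      rw [map_mul, map_mul, map_pow, map_pow, pow_add] at hval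
      rw [hc, map_div₀, map_div₀]
      rw [div_eq_iff haj']
      have hvi : v y' ^ i ≠ 0 := pow_ne_zero _ hvy0
      have : v (algebraMap K K' (P.coeff i)) * v y' ^ i =
          v y' ^ d * v (algebraMap K K' (P.coeff (i + d))) * v y' ^ i := by
        rw [hval, mul_comm (v y' ^ d), mul_assoc, mul_comm (v y' ^ d)]
      exact mul_right_cancel₀ hvi this
    -- Bezout
    have hcop : IsCoprime (d : ℤ) (p : ℤ) := by
      rw [Int.isCoprime_iff_gcd_eq_one, Int.gcd_natCast_natCast]
      exact hdeg d hd0 hdp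
    obtain ⟨a, b, hab⟩ := hcop
    refine ⟨c ^ a * x ^ b, mul_ne_zero (zpow_ne_zero _ hc0) (zpow_ne_zero _ hx), ?_⟩
    have hvx : v (algebraMap K K' x) = v y' ^ p := by
      rw [h, map_mul, hvu, one_mul, map_pow]
    rw [map_mul, map_zpow₀, map_zpow₀, map_mul, map_zpow₀, map_zpow₀, hvc, hvx,
      ← zpow_natCast, ← zpow_natCast, ← zpow_mul, ← zpow_mul, ← zpow_add₀ hvy0]
    have : (d : ℤ) * a + (p : ℤ) * b = 1 := by rw [← hab]; ring
    rw [this, zpow_one]
  obtain ⟨y, hy0, hvy⟩ : ∃ y : K, y ≠ 0 ∧ v (algebraMap K K' y) = v y' := by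
    rcases lt_or_gt_of_ne hij with hlt | hlt
    · exact key i j hi hj hlt hval
    · exact key j i hj hi hlt hval.symm
  refine ⟨y, hy0, ?_⟩
  have hy0' : algebraMap K K' y ≠ 0 := by rwa [Ne, map_eq_zero]
  have hval1 : v (algebraMap K K' x / algebraMap K K' y ^ p) = 1 := by
    rw [map_div₀, map_pow, hvy, h, map_mul, hvu, one_mul, map_pow,
      div_self (pow_ne_zero _ hvy0)]
  constructor
  · exact (ValuationSubring.valuation_le_one_iff _ _).1 (le_of_eq hval1)
  · intro hnu
    have := (ValuationSubring.mem_nonunits_iff R').1 hnu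
    rw [← hv, hval1] at this
    exact lt_irrefl _ this

end Abs

end Fermat.Agent.TW
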