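/-
Project ONE MACHINE, block [F], cell F-GEO/RES (helper20): value-group descent along the Legendre
cover `φ(F) ⊆ φ(F)(t) ⊆ E` FOR A GENERAL EXPONENT `p` COPRIME TO `6`.  Copy of helper6's `s44ro_tower`
(`S44/Res/OrdNFAux.lean`; there `p` is a prime `≥ 5`).  Prefix `twfr_`.
-/
import Mathlib
import Fermat.Agent.S44.Res.OrdNFAux
import Fermat.Agent.TW.Easy.Res.ValGroup

set_option autoImplicit false
set_option linter.style.haveILetI false
set_option linter.unusedSectionVars false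
set_option linter.unusedVariables false

noncomputable section

namespace Fermat.Agent.TW

open Fermat.Agent.SS Fermat.Agent.JT3 Fermat.Agent.S35 IntermediateField ModularCurve IsLocalRing
  AlgebraicCurve Polynomial Fermat.Agent.S44

section TowerDescent

variable (L : Type*) [Field L] [CharZero L] (N : ℕ) [NeZero N]

set_option maxHeartbeats 1600000 in
set_option synthInstance.maxHeartbeats 200000 in
/-- **value-group descent along the Legendre cover** `φ(F) ⊆ φ(F)(t) ⊆ E`, `t = λ² - λ`. -/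
theorem twfr_tower (R' : ValuationSubring ↥(lg_E L N)) {p : ℕ} (hp0 : p ≠ 0)
    (hp6 : Nat.Coprime p 6)
    {x : ↥(lg_F L N)} (hx : x ≠ 0) {y' u' : ↥(lg_E L N)} (hu : u' ∈ R' ∧ u' ∉ R'.nonunits)
    (h : lg_phiE (L := L) (N := N) x = u' * y' ^ p) :
    ∃ y : ↥(lg_F L N), y ≠ 0 ∧
      (lg_phiE (L := L) (N := N) x / lg_phiE (L := L) (N := N) y ^ p ∈ R' ∧
        lg_phiE (L := L) (N := N) x / lg_phiE (L := L) (N := N) y ^ p ∉ R'.nonunits) := by
  letI : Algebra ↥(lg_F L N) ↥(lg_E L N) :=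
    ((lg_phiE (L := L) (N := N) : ↥(lg_F L N) →ₐ[L] ↥(lg_E L N)) :
      ↥(lg_F L N) →+* ↥(lg_E L N)).toAlgebra
  obtain ⟨Kt, hfd1, hfr1, hfd2, hfr2⟩ := s44ro_tower_fields L N
  haveI := hfd1
  haveI := hfd2
  have hcop : ∀ d : ℕ, 0 < d → d ≤ 3 → Nat.Coprime d p := by
    intro d hd0 hd3
    have h2 : Nat.Coprime 2 p := (Nat.Coprime.coprime_dvd_right (by norm_num : 2 ∣ 6) hp6).symm
    have h3 : Nat.Coprime 3 p := (Nat.Coprime.coprime_dvd_right (by norm_num : 3 ∣ 6) hp6).symm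
    interval_cases d
    · exact Nat.coprime_one_left p
    · exact h2
    · exact h3
  -- step 1: descend to `F(t)`
  have hxK : algebraMap ↥(lg_F L N) ↥Kt x ≠ 0 := by
    rwa [Ne, map_eq_zero]
  obtain ⟨y1, hy10, hy1, hy1'⟩ := twfr_descend (K := ↥Kt) (K' := ↥(lg_E L N)) R' hp0
    (fun d hd0 hd => hcop d hd0 (hd.trans (hfr2.trans (by norm_num)))) hxK hu (show algebraMap ↥Kt ↥(lg_E L N)
      (algebraMap ↥(lg_F L N) ↥Kt x) = u' * y' ^ p from h)
  -- step 2: descend to `F`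
  set R1 : ValuationSubring ↥Kt := R'.comap (algebraMap ↥Kt ↥(lg_E L N)) with hR1
  set u1 : ↥Kt := algebraMap ↥(lg_F L N) ↥Kt x / y1 ^ p with hu1
  have hu1R : u1 ∈ R1 ∧ u1 ∉ R1.nonunits := by
    have e : algebraMap ↥Kt ↥(lg_E L N) u1 =
        algebraMap ↥Kt ↥(lg_E L N) (algebraMap ↥(lg_F L N) ↥Kt x) /
          algebraMap ↥Kt ↥(lg_E L N) y1 ^ p := by
      rw [hu1, map_div₀, map_pow]
    refine ⟨?_, ?_⟩
    · show algebraMap ↥Kt ↥(lg_E L N) u1 ∈ R'
      rw [e]; exact hy1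
    · intro hnu
      apply hy1'
      rw [← e]
      rw [ValuationSubring.mem_nonunits_iff_or] at hnu ⊢
      rcases hnu with h0 | h0
      · left; rw [h0, map_zero]
      · right
        intro h1
        apply h0
        show algebraMap ↥Kt ↥(lg_E L N) u1⁻¹ ∈ R'
        rw [map_inv₀]; exact h1
  have hx1 : algebraMap ↥(lg_F L N) ↥Kt x = u1 * y1 ^ p := by
    rw [hu1, div_mul_cancel₀ _ (pow_ne_zero _ hy10)]
  obtain ⟨y, hy0, hy, hy'⟩ := twfr_descend (K := ↥(lg_F L N)) (K' := ↥Kt) R1 hp0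
    (fun d hd0 hd => hcop d hd0 (hd.trans hfr1)) hx hu1R hx1
  refine ⟨y, hy0, ?_, ?_⟩
  · have : algebraMap ↥Kt ↥(lg_E L N)
        (algebraMap ↥(lg_F L N) ↥Kt x / algebraMap ↥(lg_F L N) ↥Kt y ^ p) ∈ R' := hy
    rw [map_div₀, map_pow] at this
    exact this
  · intro hnu
    apply hy'
    rw [ValuationSubring.mem_nonunits_iff_or] at hnu ⊢
    rcases hnu with h0 | h0
    · left
      have : algebraMap ↥Kt ↥(lg_E L N)
          (algebraMap ↥(lg_F L N) ↥Kt x / algebraMap ↥(lg_F L N) ↥Kt y ^ p) = 0 := by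
        rw [map_div₀, map_pow]; exact h0
      exact (map_eq_zero _).1 this
    · right
      intro h1
      apply h0
      have : algebraMap ↥Kt ↥(lg_E L N)
          (algebraMap ↥(lg_F L N) ↥Kt x / algebraMap ↥(lg_F L N) ↥Kt y ^ p)⁻¹ ∈ R' := h1
      rw [map_inv₀, map_div₀, map_pow] at this
      exact this

end TowerDescent

end Fermat.Agent.TW
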