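/-
Project ONE MACHINE, block [F], cell F-GEO/RES (helper20): (E2-ord), FINAL FORM, TWO PRIMES.
Copy of helper6's `s44ro_ord` (`S44/Res/OrdMain.lean`) with a separate exponent.

`A` a valuation subring of `Q̄` over the odd prime `p` (= level prime, level `M p`, `p ∤ M`),
`m ≠ 0` coprime to `6`:

* `twfr_OrdOff A hA M hpM m` : the reduction of a Gauss unit whose divisor is divisible by `m` has
  order divisible by `m` at every NON-supersingular place (`¬ s44e_IsSS`);
* `twfr_ord`                 : it holds.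
Prefix `twfr_`.
-/
import Mathlib
import Fermat.Agent.S44.Res.OrdMain
import Fermat.Agent.TW.Easy.Res.OrdSS

set_option autoImplicit false
set_option linter.style.haveILetI false
set_option linter.unusedSectionVars false
set_option linter.unusedVariables false

noncomputable section

namespace Fermat.Agent.TW

open Fermat.Agent.SS Fermat.Agent.JT3 Fermat.Agent.S35 Fermat.Agent.S24 IntermediateField
  ModularCurve IsLocalRing AlgebraicCurve Polynomial Fermat.Agent.S44

local notation "Qb" => AlgebraicClosure ℚ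

section Main

variable (A : ValuationSubring Qb) {p : ℕ} [hp : Fact p.Prime] (hA : A.LiesOverPrime p)
  (M : ℕ) [NeZero M] [NeZero p] [NeZero (M * p)] (hpM : ¬ p ∣ M)

/-- **(E2-ord)** for the exponent `m`: the reduction of a Gauss unit whose divisor is divisible by
`m` has order divisible by `m` at every non-supersingular place. -/
def twfr_OrdOff (m : ℕ) : Prop :=
  ∀ (f : ↥(s44pg_W A hA hp.out.ne_zero (M * p))),
    ((f : modularFunctionFieldBar (M * p)))⁻¹ ∈ s44pg_W A hA hp.out.ne_zero (M * p) →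
    (∀ v : Place Qb (modularFunctionFieldBar (M * p)),
      (m : ℤ) ∣ v.ord (f : modularFunctionFieldBar (M * p))) →
    ∀ Q : Place (s44e_kA A) (s44e_FF A M), ¬ s44e_IsSS A M p hp.out hpM Q →
      (m : ℤ) ∣ Q.ord (s44rd_red A hA M hpM f)

set_option synthInstance.maxHeartbeats 400000 in
set_option maxHeartbeats 3200000 in
/-- **(E2-ord)**: the reduction of a Gauss unit whose divisor is divisible by `m` has order
divisible by `m` at every non-supersingular place. -/
theorem twfr_ord (hp2 : p ≠ 2) {m : ℕ} (hm0 : m ≠ 0) (hm6 : Nat.Coprime m 6) :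
    twfr_OrdOff A hA M hpM m := by
  intro f hfi hord Q hQ
  classical
  obtain ⟨ζ', hζ'⟩ := HasEnoughRootsOfUnity.exists_primitiveRoot Qb M
  -- the finite set coming from non-supersingularity
  obtain ⟨T, hT⟩ : ∃ T : Finset Qb, ∀ (L1 : IntermediateField ℚ Qb) [FiniteDimensional ℚ ↥L1],
      (↑T : Set Qb) ⊆ L1 →
      (jcr_j (k := ResidueField ↥A) M ∉ Q.toValuationSubring ∨
      ∃ (b1 : ↥(lg_F ↥L1 (M * p)))
        (hb : ssm_al_iotaF ↥L1 (M * p) b1 ∈ s44pg_W A hA hp.out.ne_zero (M * p))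
        (hW : gq_IsBdd ↥(A.comap (algebraMap ↥L1 Qb)) ↥L1
          ((ssm_al_W ↥L1 M p hp.out hpM b1 : ↥(lg_F ↥L1 (M * p))) : LaurentSeries ↥L1)),
        IsIntegral (Algebra.adjoin ↥(A.comap (algebraMap ↥L1 Qb))
          ({rdn_gf_j (L := ↥L1) (M * p)} : Set ↥(lg_F ↥L1 (M * p)))) b1 ∧
        gq_res ↥(A.comap (algebraMap ↥L1 Qb)) ↥L1 ⟨_, hW⟩ = 0 ∧
        s44rd_red A hA M hpM ⟨ssm_al_iotaF ↥L1 (M * p) b1, hb⟩ ∉
          Q.toValuationSubring.nonunits) := by
    by_cases hj : jcr_j (k := ResidueField ↥A) M ∈ Q.toValuationSubring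
    · obtain ⟨T, hT⟩ := s44ec_not_isSS_nf A hA M hpM hj hQ
      exact ⟨T, fun L1 _ h => Or.inr (hT L1 h)⟩
    · exact ⟨∅, fun L1 _ _ => Or.inl hj⟩
  obtain ⟨L1, hfd, -, hTL, hS⟩ := s44b_exists_nf (M * p)
    ({(f : modularFunctionFieldBar (M * p))} : Finset _) (insert ζ' T)
  haveI := hfd
  haveI : NumberField ↥L1 := { to_charZero := inferInstance, to_finiteDimensional := hfd }
  obtain ⟨f1, hf1⟩ := hS _ (Finset.mem_singleton_self _)
  have hζL : ζ' ∈ L1 := hTL (by
    rw [Finset.coe_insert]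
    exact Set.mem_insert _ _)
  have hTL' : (↑T : Set Qb) ⊆ L1 := fun a ha => hTL (by
    rw [Finset.coe_insert]
    exact Set.mem_insert_of_mem _ ha)
  have hζ1 : IsPrimitiveRoot (⟨ζ', hζL⟩ : ↥L1) M :=
    (IsPrimitiveRoot.map_iff_of_injective (f := algebraMap ↥L1 Qb)
      (algebraMap ↥L1 Qb).injective).1 hζ'
  have hord1 : ∀ v : Place ↥L1 ↥(lg_F ↥L1 (M * p)), (m : ℤ) ∣ v.ord f1 :=
    s44ro_hord_desc L1 (M * p) (m : ℤ) f1 (fun v => by rw [hf1]; exact hord v)
  have hfW : ssm_al_iotaF ↥L1 (M * p) f1 ∈ s44pg_W A hA hp.out.ne_zero (M * p) := by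
    rw [hf1]
    exact f.2
  have key := twfr_ord_at A hA M hpM hp2 hm0 hm6 L1 ⟨ζ', hζL⟩ hζ1 Q (hT L1 hTL') f1 hfW
    (by rw [hf1]; exact hfi) hord1
  have e : f = ⟨ssm_al_iotaF ↥L1 (M * p) f1, hfW⟩ := Subtype.ext hf1.symm
  rw [e]
  exact key

end Main

end Fermat.Agent.TW
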