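import Fermat.Agent.TW.Easy.Res.Defs
import Fermat.Agent.TW.Easy.Res.OrdMain
import Fermat.Agent.S44.Res.Main

/-!
# Project ONE MACHINE, block [F], cell F-GEO/RES (helper20): THE DELIVERABLES

`A` a valuation subring of `ℚ̄` over the ODD prime `q`, `q ∤ M`, level `M q`; exponent `m ≠ 0`
coprime to `6` (in use: `m = p ^ n`, `p ≥ 5`, `p ≠ q`).  With helper28's residue dictionary
(`s44rd_hmem`, `s44rd_hsurj`, valid for every `A` over the level prime) and `twfr_ord`: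

* `twfr_nu_add`          : `ν = twfr_nu` is additive on `J₀(M q)[m]`;
* `twfr_ord_off`         : `m ∣ ord_Q f̄_z` at every NON-supersingular place `Q`;
* `twfr_dvd_all`         : `ν z = 0 ⟹ m ∣ ord_Q f̄_z` at EVERY place;
* `twfr_delta_add_of_nu` : `δ = twfr_delta` is additive on `J₀(M q)[m] ∩ ker ν`;
* `twfr_delta_ne_of_nu`, `twfr_pow_of_nu_delta` : on `ker ν`: `δ z = 0 ⟺ f̄_z` is an `m`-th power;
* `twfr_one_of_nu_delta` : `ν z = 0 = δ z ⟹ z` has a representative `f` (`div f = m D`, `[D] = z`)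
                           which is a Gauss unit with reduction `1` (the `V₁`-half of
                           `s35_ConstRed`).
Prefix `twfr_`.
-/

set_option autoImplicit false
set_option linter.unusedSectionVars false
set_option linter.style.haveILetI false

noncomputable section

namespace Fermat.Agent.TW

open ModularCurve AlgebraicCurve IsLocalRing Fermat.Agent.JT3 Fermat.Agent.S35 Fermat.Agent.SS
  Fermat.Agent.S24 Fermat.Agent.SS2 Fermat.Agent.S44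

local notation "Qb" => AlgebraicClosure ℚ

section General

variable (A : ValuationSubring Qb) {q : ℕ} [hq : Fact q.Prime] (hA : A.LiesOverPrime q)
  (M : ℕ) [NeZero M] [NeZero q] [NeZero (M * q)] (hqM : ¬ q ∣ M) {m : ℕ} (hm0 : m ≠ 0)

include hA hqM hm0

/-- **`ν_add`** for `ν = twfr_nu`. -/
theorem twfr_nu_add {z z' : JZero (M * q)} (hz : m • z = 0) (hz' : m • z' = 0) :
    twfr_nu A M q hq.out hqM m (z + z') =
      twfr_nu A M q hq.out hqM m z + twfr_nu A M q hq.out hqM m z' := by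
  funext i
  exact twfr_nuAll_add A hq.out hA M (Nat.pos_of_ne_zero hm0) (s44rd_hmem A hA M hqM) hz hz' i.1

/-- `f̄_z` is an `f̄_z`. -/
theorem twfr_fbar_spec' {z : JZero (M * q)} (hz : m • z = 0) :
    twfr_Fbar A M q m z (twfr_fbar A M q m z) :=
  twfr_fbar_spec A hq.out hA M (Nat.pos_of_ne_zero hm0) (s44rd_hmem A hA M hqM) hz

/-- (E2-ord) for `f̄_z`, any choice. -/
theorem twfr_ord_off_of_Fbar (hoff : twfr_OrdOff A hA M hqM m) {z : JZero (M * q)}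
    {fb : s44e_FF A M} (h : twfr_Fbar A M q m z fb)
    (Q : Place (s44e_kA A) (s44e_FF A M)) (hQ : ¬ s44e_IsSS A M q hq.out hqM Q) :
    (m : ℤ) ∣ Q.ord fb := by
  obtain ⟨hfb0, f, hf, hred⟩ := h
  obtain ⟨hfW, rfl⟩ := s44e_redOf_eq_red A hA M hqM hred
  obtain ⟨hb, e⟩ := hred
  have hres : gq_res ↥A Qb ⟨(f : LaurentSeries Qb), hb⟩ ≠ 0 := by
    rw [e]
    intro h0
    exact hfb0 (Subtype.ext h0)
  have hinv : (f : modularFunctionFieldBar (M * q))⁻¹ ∈ s44pg_W A hA hq.out.ne_zero (M * q) := by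
    have h1 := gq_isBdd_inv_of_res_ne_zero ⟨(f : LaurentSeries Qb), hb⟩ hres
    show gq_IsBdd ↥A Qb ((f⁻¹ : modularFunctionFieldBar (M * q)) : LaurentSeries Qb)
    rwa [IntermediateField.coe_inv]
  obtain ⟨-, D, -, hD⟩ := hf
  exact hoff ⟨f, hfW⟩ hinv (fun v => ⟨_, (hD v).symm⟩) Q hQ

/-- (E2-ord) for the chosen `f̄_z`. -/
theorem twfr_ord_off_of (hoff : twfr_OrdOff A hA M hqM m) {z : JZero (M * q)} (hz : m • z = 0)
    (Q : Place (s44e_kA A) (s44e_FF A M)) (hQ : ¬ s44e_IsSS A M q hq.out hqM Q) :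
    (m : ℤ) ∣ Q.ord (twfr_fbar A M q m z) :=
  twfr_ord_off_of_Fbar A hA M hqM hm0 hoff (twfr_fbar_spec' A hA M hqM hm0 hz) Q hQ

/-- (E2-ord) + `ν z = 0` ⟹ the divisor of `f̄_z` is divisible by `m`. -/
theorem twfr_dvd_all_of (hoff : twfr_OrdOff A hA M hqM m) {z : JZero (M * q)} (hz : m • z = 0)
    (hν : twfr_nu A M q hq.out hqM m z = 0) (Q : Place (s44e_kA A) (s44e_FF A M)) :
    (m : ℤ) ∣ Q.ord (twfr_fbar A M q m z) := by
  by_cases hQ : s44e_IsSS A M q hq.out hqM Q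
  · have h := congrFun hν ⟨Q, hQ⟩
    exact (ZMod.intCast_zmod_eq_zero_iff_dvd _ _).1 h
  · exact twfr_ord_off_of A hA M hqM hm0 hoff hz Q hQ

end General

section Closed

variable (A : ValuationSubring Qb) {q : ℕ} [hq : Fact q.Prime] (hA : A.LiesOverPrime q)
  (M : ℕ) [NeZero M] [NeZero q] [NeZero (M * q)] (hqM : ¬ q ∣ M) (hq2 : q ≠ 2)
  {m : ℕ} (hm0 : m ≠ 0) (hm6 : Nat.Coprime m 6)

include hA hqM hq2 hm0 hm6

/-- **(E2-ord)**: `m ∣ ord_Q f̄_z` at every non-supersingular place. -/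
theorem twfr_ord_off {z : JZero (M * q)} (hz : m • z = 0)
    (Q : Place (s44e_kA A) (s44e_FF A M)) (hQ : ¬ s44e_IsSS A M q hq.out hqM Q) :
    (m : ℤ) ∣ Q.ord (twfr_fbar A M q m z) :=
  twfr_ord_off_of A hA M hqM hm0 (twfr_ord A hA M hqM hq2 hm0 hm6) hz Q hQ

/-- **`ν z = 0 ⟹ m ∣ div f̄_z`.** -/
theorem twfr_dvd_all {z : JZero (M * q)} (hz : m • z = 0)
    (hν : twfr_nu A M q hq.out hqM m z = 0) (Q : Place (s44e_kA A) (s44e_FF A M)) :
    (m : ℤ) ∣ Q.ord (twfr_fbar A M q m z) :=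
  twfr_dvd_all_of A hA M hqM hm0 (twfr_ord A hA M hqM hq2 hm0 hm6) hz hν Q

/-- for ANY `f̄_z`: `ν z = 0 ⟹ m ∣ div f̄_z`. -/
theorem twfr_dvd_all_Fbar {z : JZero (M * q)} (hz : m • z = 0)
    (hν : twfr_nu A M q hq.out hqM m z = 0) {fb : s44e_FF A M} (h : twfr_Fbar A M q m z fb)
    (Q : Place (s44e_kA A) (s44e_FF A M)) : (m : ℤ) ∣ Q.ord fb := by
  have hm := Nat.pos_of_ne_zero hm0
  have h1 := twfr_dvd_all A hA M hqM hq2 hm0 hm6 hz hν Q
  have h2 := (twfr_nuAll_eq_zero_iff A hq.out hA M hm (s44rd_hmem A hA M hqM)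
    (twfr_fbar_spec' A hA M hqM hm0 hz) Q).2 h1
  exact (twfr_nuAll_eq_zero_iff A hq.out hA M hm (s44rd_hmem A hA M hqM) h Q).1 h2

/-- **`δ` is additive on `J₀(M q)[m] ∩ ker ν`.** -/
theorem twfr_delta_add_of_nu {z z' : JZero (M * q)} (hz : m • z = 0) (hz' : m • z' = 0)
    (hν : twfr_nu A M q hq.out hqM m z = 0) (hν' : twfr_nu A M q hq.out hqM m z' = 0) :
    twfr_delta A M q m (z + z') = twfr_delta A M q m z + twfr_delta A M q m z' :=
  twfr_delta_add A hq.out hA M hqM (Nat.pos_of_ne_zero hm0) (s44rd_hmem A hA M hqM) hz hz'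
    (twfr_dvd_all A hA M hqM hq2 hm0 hm6 hz hν) (twfr_dvd_all A hA M hqM hq2 hm0 hm6 hz' hν')

/-- on `ker ν`: `f̄_z` not an `m`-th power ⟹ `δ z ≠ 0`. -/
theorem twfr_delta_ne_of_nu {z : JZero (M * q)} (hz : m • z = 0)
    (hν : twfr_nu A M q hq.out hqM m z = 0)
    (hnp : ¬ ∃ g : s44e_FF A M, twfr_fbar A M q m z = g ^ m) :
    twfr_delta A M q m z ≠ 0 :=
  twfr_delta_ne A hq.out hA M hqM (Nat.pos_of_ne_zero hm0) (s44rd_hmem A hA M hqM) hz
    (twfr_dvd_all A hA M hqM hq2 hm0 hm6 hz hν) hnp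

/-- on `ker ν`: `δ z = 0 ⟹` EVERY `f̄_z` is an `m`-th power. -/
theorem twfr_pow_of_nu_delta {z : JZero (M * q)} (hz : m • z = 0)
    (hν : twfr_nu A M q hq.out hqM m z = 0) (hδ : twfr_delta A M q m z = 0)
    {fb : s44e_FF A M} (h : twfr_Fbar A M q m z fb) :
    ∃ g : s44e_FF A M, g ≠ 0 ∧ fb = g ^ m :=
  twfr_Fbar_pow_of_delta_eq_zero A hq.out hA M hqM (Nat.pos_of_ne_zero hm0)
    (s44rd_hmem A hA M hqM) hz h (twfr_dvd_all_Fbar A hA M hqM hq2 hm0 hm6 hz hν h) hδ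

/-- **`ν z = 0 = δ z ⟹ z` has a representative which is a Gauss unit with reduction `1`.** -/
theorem twfr_one_of_nu_delta {z : JZero (M * q)} (hz : m • z = 0)
    (hν : twfr_nu A M q hq.out hqM m z = 0) (hδ : twfr_delta A M q m z = 0) :
    ∃ f : modularFunctionFieldBar (M * q), s44f_Rep (M * q) m z f ∧ s44e_RedOf A M f 1 := by
  have hm := Nat.pos_of_ne_zero hm0
  obtain ⟨fb, hfb⟩ := twfr_fbar_exists A hq.out hA M hm (s44rd_hmem A hA M hqM) hz
  obtain ⟨g, hg0, hg⟩ := twfr_pow_of_nu_delta A hA M hqM hq2 hm0 hm6 hz hν hδ hfb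
  obtain ⟨hfb0, f, hf, hred⟩ := hfb
  obtain ⟨G, hG, hGres⟩ := s44rd_hsurj A hA M hqM g
  have hGred : s44e_RedOf A M G g := ⟨hG, hGres⟩
  have hG0 : G ≠ 0 := by
    rintro rfl
    obtain ⟨hb, e⟩ := hGred
    have : (⟨((0 : modularFunctionFieldBar (M * q)) : LaurentSeries Qb), hb⟩ :
        ↥(gq_bddSubring ↥A Qb)) = 0 := rfl
    rw [this, map_zero] at e
    exact hg0 (Subtype.ext e.symm)
  refine ⟨f * (G ^ m)⁻¹, ?_, ?_⟩
  · -- still a representative
    have h1 := (s44b_rep_pth (M * q) (p := m) (z := z) (f := f) (c := (1 : Qb))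
      (h := G⁻¹) one_ne_zero (inv_ne_zero hG0)).2 hf
    rwa [map_one, one_mul, inv_pow] at h1
  · have h1 := s44e_redOf_mul A M hred
      (s44e_redOf_inv A M (s44e_redOf_pow A M hGred m) (pow_ne_zero _ hg0))
    rwa [hg, mul_inv_cancel₀ (pow_ne_zero _ hg0)] at h1

end Closed

end Fermat.Agent.TW
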