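import Fermat.Agent.S44.Res.Glue

/-!
# Project ONE MACHINE, block [F], cell F-GEO/RES (helper20): residues and reductions, TWO PRIMES

Two-prime re-instantiation of the top layer of S44 [E2] (`S44/Res/Defs.lean`, `S44/Res/Glue.lean`):
there the residue characteristic of `A`, the level prime and the torsion exponent are ONE prime `p`;
here

* `A` is a valuation subring of `ℚ̄` over the prime `q` (residue characteristic = level prime),
  the level is `M * q`, `q ∤ M`;
* the torsion exponent is an arbitrary `m > 0` (in the application `m = p ^ n`, `p ≠ q`).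

Everything below the top layer (`s44e_RedOf`, `s44e_FF`, `s44e_IsSS`, `s44e_Sg`, the calculus
`s44e_redOf_*`, helper28's residue dictionary `s44rd_*`, the Gauss ring `s44pg_W`) never mentions the
torsion exponent and is re-used verbatim with `p := q`.

* `twfr_Fbar A M q m z fb` : `fb ≠ 0` is the `w_∞`-reduction of a representative `f` of `z`
                              (`div f = m D`, `[D] = z`);
* `twfr_fbar A M q m z`    : a chosen one (`1` if there is none);
* `twfr_nuAll A M q m z Q` : `ord_Q f̄_z mod m`, at EVERY place `Q` of `FF_M / kA`;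
* `twfr_nu`                : its restriction to the supersingular places `s44e_Sg A M q hq hqM`;
* `twfr_delta A M q m z`   : the class `[(1/m) div f̄_z]` of `JZeroC kA M` (`0` if undefined).

Results: existence / uniqueness up to `m`-th powers / multiplicativity of `f̄_z`; `ν` is well defined
and additive; `δ` is well defined, killed by `m`, additive where defined, and
`δ z = 0 ⟹ f̄_z` is an `m`-th power (`twfr_delta_eq_zero`).

Prefix `twfr_`, namespace `Fermat.Agent.TW`.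
-/

set_option autoImplicit false
set_option linter.unusedSectionVars false
set_option linter.style.haveILetI false

noncomputable section

namespace Fermat.Agent.TW

open ModularCurve AlgebraicCurve IsLocalRing Fermat.Agent.JT3 Fermat.Agent.S35 Fermat.Agent.SS
  Fermat.Agent.S24 Fermat.Agent.SS2 Fermat.Agent.S44

local notation "Qb" => AlgebraicClosure ℚ

/-! ### definitions -/

section Defs

variable (A : ValuationSubring Qb) (M : ℕ) [NeZero M]

/-- `fb ≠ 0` is the `w_∞`-reduction of a representative of `z` for the exponent `m`. -/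
def twfr_Fbar (q m : ℕ) [NeZero (M * q)] (z : JZero (M * q)) (fb : s44e_FF A M) : Prop :=
  fb ≠ 0 ∧ ∃ f : modularFunctionFieldBar (M * q), s44f_Rep (M * q) m z f ∧ s44e_RedOf A M f fb

open Classical in
/-- a chosen reduction `f̄_z` of a representative of `z` (exponent `m`). -/
def twfr_fbar (q m : ℕ) [NeZero (M * q)] (z : JZero (M * q)) : s44e_FF A M :=
  if h : ∃ fb, twfr_Fbar A M q m z fb then h.choose else 1

/-- the residue of `z` at ANY place `Q` of `FF_M / kA`: `ord_Q f̄_z mod m`. -/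
def twfr_nuAll (q m : ℕ) [NeZero (M * q)] (z : JZero (M * q))
    (Q : Place (s44e_kA A) (s44e_FF A M)) : ZMod m :=
  ((Q.ord (twfr_fbar A M q m z) : ℤ) : ZMod m)

/-- the residue map at the supersingular places. -/
def twfr_nu (q : ℕ) [NeZero q] (hq : q.Prime) [NeZero (M * q)] (hqM : ¬ q ∣ M) (m : ℕ)
    (z : JZero (M * q)) (i : s44e_Sg A M q hq hqM) : ZMod m :=
  twfr_nuAll A M q m z i.1

open Classical in
/-- **the class `δ(z) = [(1/m) div f̄_z]`** of `Pic⁰(FF_M / kA) = JZeroC kA M` (`0` if the divisor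
of `f̄_z` is not divisible by `m`). -/
def twfr_delta (q m : ℕ) [NeZero (M * q)] (z : JZero (M * q)) : JZeroC (s44e_kA A) M :=
  if h : ∃ D : Divisor.degZero (K := s44e_kA A) (F := s44e_FF A M),
      ∀ Q : Place (s44e_kA A) (s44e_FF A M),
        (m : ℤ) * (D : Divisor (s44e_kA A) (s44e_FF A M)) Q = Q.ord (twfr_fbar A M q m z)
  then Pic0.mk h.choose else 0

end Defs

/-! ### `f̄_z`: existence, uniqueness, multiplicativity; `ν` -/

section Fbar

variable (A : ValuationSubring Qb) {q : ℕ} (hq : q.Prime) (hA : A.LiesOverPrime q)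
  (M : ℕ) [NeZero M] [NeZero (M * q)] {m : ℕ} (hm : 0 < m)
  (hmem : ∀ (b : modularFunctionFieldBar (M * q))
    (h : gq_IsBdd ↥A Qb (b : LaurentSeries Qb)),
    gq_res ↥A Qb ⟨(b : LaurentSeries Qb), h⟩ ∈ lg_F (s44e_kA A) M)

include hq hA hm hmem

/-- **existence of `f̄_z`.** -/
theorem twfr_fbar_exists {z : JZero (M * q)} (hz : m • z = 0) :
    ∃ fb, twfr_Fbar A M q m z fb := by
  obtain ⟨f, hf⟩ := s44b_rep_exists (M * q) hz
  obtain ⟨c, hc0, h1, h2⟩ := s44pg_nrm A hA hq.ne_zero (M * q) hf.1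
  have hf10 : algebraMap Qb (modularFunctionFieldBar (M * q)) c * f ≠ 0 :=
    mul_ne_zero ((_root_.map_ne_zero _).2 hc0) hf.1
  obtain ⟨fb, hfb0, hfb⟩ := s44e_exists_redOf_of_unit A hq hA M hmem h1 h2 hf10
  refine ⟨fb, hfb0, _, ?_, hfb⟩
  have := (s44b_rep_pth (M * q) (p := m) (z := z) (f := f) (c := c)
    (h := (1 : modularFunctionFieldBar (M * q))) hc0 one_ne_zero).2 hf
  rwa [one_pow, mul_one] at this

/-- **uniqueness of `f̄_z` up to `m`-th powers.** -/
theorem twfr_fbar_unique {z : JZero (M * q)} {fb fb' : s44e_FF A M}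
    (h : twfr_Fbar A M q m z fb) (h' : twfr_Fbar A M q m z fb') :
    ∃ g : s44e_FF A M, g ≠ 0 ∧ fb' = g ^ m * fb := by
  haveI : IsAlgClosed (s44e_kA A) := jcr_isAlgClosed A
  obtain ⟨hfb0, f, hf, hred⟩ := h
  obtain ⟨hfb0', f', hf', hred'⟩ := h'
  obtain ⟨c, u, hc0, hu0, e⟩ := s44b_rep_unique (M * q) hf hf'
  obtain ⟨d, hd0, hu1, hu2⟩ := s44pg_nrm A hA hq.ne_zero (M * q) hu0
  set u1 := algebraMap Qb (modularFunctionFieldBar (M * q)) d * u with hu1def
  have hu10 : u1 ≠ 0 := mul_ne_zero ((_root_.map_ne_zero _).2 hd0) hu0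
  obtain ⟨ub, hub0, hub⟩ := s44e_exists_redOf_of_unit A hq hA M hmem hu1 hu2 hu10
  -- the constant
  set c' : Qb := c / d ^ m with hc'
  have e' : f' = algebraMap Qb (modularFunctionFieldBar (M * q)) c' * (f * u1 ^ m) := by
    rw [e, hu1def, hc', map_div₀, map_pow, mul_pow]
    have hd' : algebraMap Qb (modularFunctionFieldBar (M * q)) d ≠ 0 :=
      (_root_.map_ne_zero _).2 hd0
    field_simp
  have hfu : s44e_RedOf A M (f * u1 ^ m) (fb * ub ^ m) :=
    s44e_redOf_mul A M hred (s44e_redOf_pow A M hub m)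
  have hfu0 : fb * ub ^ m ≠ 0 := mul_ne_zero hfb0 (pow_ne_zero _ hub0)
  have hinv := s44e_redOf_inv A M hfu hfu0
  have hcW : s44e_RedOf A M (algebraMap Qb (modularFunctionFieldBar (M * q)) c')
      (fb' * (fb * ub ^ m)⁻¹) := by
    have h1 := s44e_redOf_mul A M hred' hinv
    have h2 : f' * (f * u1 ^ m)⁻¹ = algebraMap Qb (modularFunctionFieldBar (M * q)) c' := by
      have : f * u1 ^ m ≠ 0 := mul_ne_zero hf.1 (pow_ne_zero _ hu10)
      rw [e', mul_assoc, mul_inv_cancel₀ this, mul_one]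
    rwa [h2] at h1
  have hc'A : c' ∈ A := (s44pg_isBdd_const A c').1 hcW.1
  have hcc := s44e_redOf_const A M (N := M * q) c' hc'A
  have heq := s44e_redOf_unique A M hcW hcc
  obtain ⟨e0, he0⟩ := IsAlgClosed.exists_pow_nat_eq (residue ↥A ⟨c', hc'A⟩) hm
  refine ⟨algebraMap (s44e_kA A) (s44e_FF A M) e0 * ub, ?_, ?_⟩
  · refine mul_ne_zero ?_ hub0
    rw [Ne, map_eq_zero]
    rintro rfl
    rw [zero_pow hm.ne'] at he0
    rw [← he0, map_zero] at heq
    have : fb' = 0 := by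
      have h3 := congrArg (· * (fb * ub ^ m)) heq
      simp only [zero_mul] at h3
      rwa [inv_mul_cancel_right₀ hfu0] at h3
    exact hfb0' this
  · rw [mul_pow, ← map_pow, he0, ← heq]
    field_simp

/-- multiplicativity. -/
theorem twfr_fbar_mul {z z' : JZero (M * q)} {fb fb' : s44e_FF A M}
    (h : twfr_Fbar A M q m z fb) (h' : twfr_Fbar A M q m z' fb') :
    twfr_Fbar A M q m (z + z') (fb * fb') := by
  obtain ⟨hfb0, f, hf, hred⟩ := h
  obtain ⟨hfb0', f', hf', hred'⟩ := h'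
  exact ⟨mul_ne_zero hfb0 hfb0', f * f', s44b_rep_mul (M * q) hf hf',
    s44e_redOf_mul A M hred hred'⟩

/-- `f̄_z` is an `f̄_z`. -/
theorem twfr_fbar_spec {z : JZero (M * q)} (hz : m • z = 0) :
    twfr_Fbar A M q m z (twfr_fbar A M q m z) := by
  have h := twfr_fbar_exists A hq hA M hm hmem hz
  rw [twfr_fbar, dif_pos h]
  exact h.choose_spec

/-- **`ν` is well defined.** -/
theorem twfr_nuAll_eq {z : JZero (M * q)} {fb : s44e_FF A M} (h : twfr_Fbar A M q m z fb)
    (Q : Place (s44e_kA A) (s44e_FF A M)) :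
    twfr_nuAll A M q m z Q = ((Q.ord fb : ℤ) : ZMod m) := by
  have hex : ∃ fb, twfr_Fbar A M q m z fb := ⟨fb, h⟩
  have h0 : twfr_Fbar A M q m z (twfr_fbar A M q m z) := by
    rw [twfr_fbar, dif_pos hex]
    exact hex.choose_spec
  obtain ⟨g, hg0, e⟩ := twfr_fbar_unique A hq hA M hm hmem h0 h
  rw [twfr_nuAll, e, Q.ord_mul (pow_ne_zero _ hg0) h0.1]
  have h1 : Q.ord (g ^ m) = m * Q.ord g := by
    have := Q.ord_zpow g (m : ℤ)
    rwa [zpow_natCast] at this
  rw [h1]
  push_cast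
  rw [ZMod.natCast_self, zero_mul, zero_add]

/-- **`ν_add`**, at every place. -/
theorem twfr_nuAll_add {z z' : JZero (M * q)} (hz : m • z = 0) (hz' : m • z' = 0)
    (Q : Place (s44e_kA A) (s44e_FF A M)) :
    twfr_nuAll A M q m (z + z') Q = twfr_nuAll A M q m z Q + twfr_nuAll A M q m z' Q := by
  obtain ⟨fb, hfb⟩ := twfr_fbar_exists A hq hA M hm hmem hz
  obtain ⟨fb', hfb'⟩ := twfr_fbar_exists A hq hA M hm hmem hz'
  rw [twfr_nuAll_eq A hq hA M hm hmem (twfr_fbar_mul A hq hA M hm hmem hfb hfb') Q,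
    twfr_nuAll_eq A hq hA M hm hmem hfb Q, twfr_nuAll_eq A hq hA M hm hmem hfb' Q,
    Q.ord_mul hfb.1 hfb'.1]
  push_cast
  rfl

/-- `ν z = 0` at `Q` iff `m ∣ ord_Q f̄_z`, for ANY `f̄_z`. -/
theorem twfr_nuAll_eq_zero_iff {z : JZero (M * q)} {fb : s44e_FF A M}
    (h : twfr_Fbar A M q m z fb) (Q : Place (s44e_kA A) (s44e_FF A M)) :
    twfr_nuAll A M q m z Q = 0 ↔ (m : ℤ) ∣ Q.ord fb := by
  rw [twfr_nuAll_eq A hq hA M hm hmem h Q]
  exact ZMod.intCast_zmod_eq_zero_iff_dvd _ _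

end Fbar

/-! ### the class `δ` -/

section Delta

variable (A : ValuationSubring Qb) {q : ℕ} (hq : q.Prime) (hA : A.LiesOverPrime q)
  (M : ℕ) [NeZero M] [NeZero (M * q)] (hqM : ¬ q ∣ M) {m : ℕ} (hm : 0 < m)
  (hmem : ∀ (b : modularFunctionFieldBar (M * q))
    (h : gq_IsBdd ↥A Qb (b : LaurentSeries Qb)),
    gq_res ↥A Qb ⟨(b : LaurentSeries Qb), h⟩ ∈ lg_F (s44e_kA A) M)

include hq hA hm hmem hqM

/-- **characterisation of `δ(z)`** through ANY `f̄_z` and ANY `D` with `m D = div f̄_z`. -/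
theorem twfr_delta_eq {z : JZero (M * q)} (hz : m • z = 0) {fb : s44e_FF A M}
    (h : twfr_Fbar A M q m z fb) (D : Divisor.degZero (K := s44e_kA A) (F := s44e_FF A M))
    (hD : ∀ Q : Place (s44e_kA A) (s44e_FF A M),
      (m : ℤ) * (D : Divisor (s44e_kA A) (s44e_FF A M)) Q = Q.ord fb) :
    twfr_delta A M q m z = Pic0.mk D := by
  haveI : Fact q.Prime := ⟨hq⟩
  haveI : CharP (s44e_kA A) q := jcr_charP A hA
  haveI : IsAlgClosed (s44e_kA A) := jcr_isAlgClosed A
  haveI : HasPrincipalDivisors (s44e_kA A) (s44e_FF A M) :=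
    rt_hasPrincipalDivisors (jcr_isSepGen (k := s44e_kA A) M hqM (jcr_rho A hA))
  have h0 := twfr_fbar_spec A hq hA M hm hmem hz
  obtain ⟨g, hg0, e⟩ := twfr_fbar_unique A hq hA M hm hmem h0 h
  obtain ⟨Dg, hDg, hDgdeg⟩ := HasPrincipalDivisors.exists_divisor (K := s44e_kA A) g hg0
  have hex : ∃ D : Divisor.degZero (K := s44e_kA A) (F := s44e_FF A M),
      ∀ Q : Place (s44e_kA A) (s44e_FF A M),
        (m : ℤ) * (D : Divisor (s44e_kA A) (s44e_FF A M)) Q = Q.ord (twfr_fbar A M q m z) := by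
    refine ⟨D - ⟨Dg, hDgdeg⟩, fun Q => ?_⟩
    have h1 : Q.ord (g ^ m) = m * Q.ord g := by
      have := Q.ord_zpow g (m : ℤ)
      rwa [zpow_natCast] at this
    have h2 := hD Q
    rw [e, Q.ord_mul (pow_ne_zero _ hg0) h0.1, h1] at h2
    rw [AddSubgroup.coe_sub, Finsupp.sub_apply, mul_sub, h2]
    change _ - (m : ℤ) * Dg Q = _
    rw [hDg Q]
    ring
  rw [twfr_delta, dif_pos hex]
  exact s44e_class_eq hm.ne' hg0 h0.1 e _ _ hex.choose_spec hD

omit hq hA hm hmem hqM in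
/-- `m • δ(z) = 0`. -/
theorem twfr_delta_tors (q m : ℕ) [NeZero (M * q)] (z : JZero (M * q)) :
    m • twfr_delta A M q m z = 0 := by
  rw [twfr_delta]
  split_ifs with h
  · have h1 : m • Pic0.mk h.choose = Pic0.mk (m • h.choose) := rfl
    rw [h1]
    refine (QuotientAddGroup.eq_zero_iff _).mpr ?_
    rw [AddSubgroup.mem_addSubgroupOf]
    by_cases h0 : twfr_fbar A M q m z = 0
    · refine ⟨1, one_ne_zero, fun v => ?_⟩
      have h5 : v.ord (twfr_fbar A M q m z) = 0 := by rw [h0]; exact Place.ord_zero v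
      have := (h.choose_spec v).trans h5
      rw [Place.ord_one, AddSubgroup.coe_nsmul, Finsupp.smul_apply, nsmul_eq_mul, this]
    · refine ⟨twfr_fbar A M q m z, h0, fun v => ?_⟩
      rw [← h.choose_spec v, AddSubgroup.coe_nsmul, Finsupp.smul_apply, nsmul_eq_mul]
  · exact smul_zero _

/-- additivity of `δ` where both divisors are divisible by `m`. -/
theorem twfr_delta_add {z z' : JZero (M * q)} (hz : m • z = 0) (hz' : m • z' = 0)
    (hd : ∀ Q : Place (s44e_kA A) (s44e_FF A M), (m : ℤ) ∣ Q.ord (twfr_fbar A M q m z))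
    (hd' : ∀ Q : Place (s44e_kA A) (s44e_FF A M), (m : ℤ) ∣ Q.ord (twfr_fbar A M q m z')) :
    twfr_delta A M q m (z + z') = twfr_delta A M q m z + twfr_delta A M q m z' := by
  haveI : Fact q.Prime := ⟨hq⟩
  haveI : CharP (s44e_kA A) q := jcr_charP A hA
  haveI : IsAlgClosed (s44e_kA A) := jcr_isAlgClosed A
  haveI : HasPrincipalDivisors (s44e_kA A) (s44e_FF A M) :=
    rt_hasPrincipalDivisors (jcr_isSepGen (k := s44e_kA A) M hqM (jcr_rho A hA))
  have h0 := twfr_fbar_spec A hq hA M hm hmem hz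
  have h0' := twfr_fbar_spec A hq hA M hm hmem hz'
  obtain ⟨D, hD⟩ := s44rf_exists_div hm h0.1 hd
  obtain ⟨D', hD'⟩ := s44rf_exists_div hm h0'.1 hd'
  have hzz : m • (z + z') = 0 := by rw [nsmul_add, hz, hz', add_zero]
  rw [twfr_delta_eq A hq hA M hqM hm hmem hz h0 D hD,
    twfr_delta_eq A hq hA M hqM hm hmem hz' h0' D' hD',
    twfr_delta_eq A hq hA M hqM hm hmem hzz (twfr_fbar_mul A hq hA M hm hmem h0 h0') (D + D')
      (fun Q => by
        rw [Q.ord_mul h0.1 h0'.1, ← hD Q, ← hD' Q, AddSubgroup.coe_add, Finsupp.add_apply]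
        ring)]
  rfl

/-- `δ(z) ≠ 0` when `f̄_z` is not an `m`-th power. -/
theorem twfr_delta_ne {z : JZero (M * q)} (hz : m • z = 0)
    (hd : ∀ Q : Place (s44e_kA A) (s44e_FF A M), (m : ℤ) ∣ Q.ord (twfr_fbar A M q m z))
    (hnp : ¬ ∃ g : s44e_FF A M, twfr_fbar A M q m z = g ^ m) :
    twfr_delta A M q m z ≠ 0 := by
  haveI : Fact q.Prime := ⟨hq⟩
  haveI : CharP (s44e_kA A) q := jcr_charP A hA
  haveI : IsAlgClosed (s44e_kA A) := jcr_isAlgClosed A
  have hsep := jcr_isSepGen (k := s44e_kA A) M hqM (jcr_rho A hA)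
  haveI : HasPrincipalDivisors (s44e_kA A) (s44e_FF A M) := rt_hasPrincipalDivisors hsep
  have h0 := twfr_fbar_spec A hq hA M hm hmem hz
  obtain ⟨D, hD⟩ := s44rf_exists_div hm h0.1 hd
  rw [twfr_delta_eq A hq hA M hqM hm hmem hz h0 D hD]
  refine (s44rf_class m (fun c => IsAlgClosed.exists_pow_nat_eq c hm) ?_ h0.1 D hD hnp).1
  intro u hu0 hu
  exact rt_const_of_forall_mem hsep u (fun v => (hw_mem_iff_ord_nonneg v hu0).2 (hu v).ge)

/-- **`δ z = 0 ⟹ f̄_z` is an `m`-th power** (the input shape of `s35_ConstRed` / `tori_core`). -/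
theorem twfr_delta_eq_zero {z : JZero (M * q)} (hz : m • z = 0)
    (hd : ∀ Q : Place (s44e_kA A) (s44e_FF A M), (m : ℤ) ∣ Q.ord (twfr_fbar A M q m z))
    (h0 : twfr_delta A M q m z = 0) :
    ∃ g : s44e_FF A M, g ≠ 0 ∧ twfr_fbar A M q m z = g ^ m := by
  by_contra hcon
  refine twfr_delta_ne A hq hA M hqM hm hmem hz hd ?_ h0
  rintro ⟨g, hg⟩
  refine hcon ⟨g, ?_, hg⟩
  rintro rfl
  rw [zero_pow hm.ne'] at hg
  exact (twfr_fbar_spec A hq hA M hm hmem hz).1 hg

/-- for ANY `f̄_z`: `δ z = 0` and `m ∣ div f̄_z` ⟹ `f̄_z` is an `m`-th power. -/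
theorem twfr_Fbar_pow_of_delta_eq_zero {z : JZero (M * q)} (hz : m • z = 0)
    {fb : s44e_FF A M} (h : twfr_Fbar A M q m z fb)
    (hd : ∀ Q : Place (s44e_kA A) (s44e_FF A M), (m : ℤ) ∣ Q.ord fb)
    (h0 : twfr_delta A M q m z = 0) :
    ∃ g : s44e_FF A M, g ≠ 0 ∧ fb = g ^ m := by
  have hs := twfr_fbar_spec A hq hA M hm hmem hz
  obtain ⟨u, hu0, e⟩ := twfr_fbar_unique A hq hA M hm hmem hs h
  have hd' : ∀ Q : Place (s44e_kA A) (s44e_FF A M), (m : ℤ) ∣ Q.ord (twfr_fbar A M q m z) := by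
    intro Q
    have h1 : Q.ord (u ^ m) = m * Q.ord u := by
      have := Q.ord_zpow u (m : ℤ)
      rwa [zpow_natCast] at this
    have h2 := hd Q
    rw [e, Q.ord_mul (pow_ne_zero _ hu0) hs.1, h1] at h2
    exact (dvd_add_right (dvd_mul_right _ _)).1 h2
  obtain ⟨g, hg0, hg⟩ := twfr_delta_eq_zero A hq hA M hqM hm hmem hz hd' h0
  exact ⟨u * g, mul_ne_zero hu0 hg0, by rw [e, hg, mul_pow]⟩

end Delta

end Fermat.Agent.TW
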